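import Mathlib
import Fermat.Agent.ES.Package
import Fermat.Agent.Cheb.Plan
import Fermat.Prelude.Def_FreyPackage_EigenformResidualAttachment

/-!
# S42 / S29: statements of the pieces (definitions only)

Each piece is one `Prop`; the assembly `Fermat/Agent/S42/Assembly.lean` proves
`StmtInt → StmtFreyField → StmtCyclo → StmtHull → Cheb.WeakChebotarev → (∀ M p, ESPkg M p) → S42`.
-/

set_option autoImplicit false

namespace Fermat.Agent.S42

open Fermat.Agent.ES

/-- the condition "σ fixes the intermediate field `E` pointwise" -/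
def FixesField (E : IntermediateField ℚ (AlgebraicClosure ℚ)) (σ : GQ) : Prop :=
  ∀ x ∈ E, σ x = x

/-- [INT] the `q`-coefficients of a normalized eigenform at primes not dividing the level are
algebraic integers. -/
def StmtInt : Prop :=
  ∀ (M : ℕ), 0 < M → ∀ g : CuspForm (CongruenceSubgroup.Gamma0 M) 2, g.IsNormalizedEigenform →
    ∀ ℓ : ℕ, ℓ.Prime → ¬ ℓ ∣ M → ∃ a : Zbar, (a : ℂ) = ModularFormClass.qCoeff g ℓ

/-- [EC-1] the mod-`p` representation of a Frey curve is trivial on `Gal(ℚ̄/E)` for some finite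
`E/ℚ`. -/
def StmtFreyField : Prop :=
  ∀ P : FreyPackage, ∃ E : IntermediateField ℚ (AlgebraicClosure ℚ), FiniteDimensional ℚ E ∧
    ∀ σ : GQ, FixesField E σ →
      letI : DecidableEq (AlgebraicClosure ℚ) := Classical.decEq _
      WeierstrassCurve.Affine.Point.galoisRepModuleEnd (S := ℚ) (K := AlgebraicClosure ℚ)
        P.freyCurve P.p σ = 1

/-- [NT-3] the mod-`p` cyclotomic character: finite level, and `ω(Frob_ℓ) = ℓ` for `ℓ ≠ p`. -/
def StmtCyclo : Prop :=
  ∀ p : ℕ, p.Prime → ∃ ω : GQ →* (ZMod p)ˣ,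
    (∃ E : IntermediateField ℚ (AlgebraicClosure ℚ), FiniteDimensional ℚ E ∧
      ∀ σ : GQ, FixesField E σ → ω σ = 1) ∧
    ∀ ℓ : ℕ, ℓ.Prime → ℓ ≠ p →
      ∀ A : ValuationSubring (AlgebraicClosure ℚ), A.LiesOverPrime ℓ →
        ∀ τ : GQ, A.IsFrobeniusAt τ ℓ → ((ω τ : (ZMod p)ˣ) : ZMod p) = (ℓ : ZMod p)

/-- [Gal-1] finitely many finite extensions lie in a finite Galois extension. -/
def StmtHull : Prop :=
  ∀ s : Finset (IntermediateField ℚ (AlgebraicClosure ℚ)),
    (∀ E ∈ s, FiniteDimensional ℚ E) →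
      ∃ F : IntermediateField ℚ (AlgebraicClosure ℚ), FiniteDimensional ℚ F ∧ Normal ℚ F ∧
        ∀ E ∈ s, E ≤ F

end Fermat.Agent.S42
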