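import Mathlib
import Fermat.Agent.S42.Plan
import Fermat.Agent.S13.Interface
import Fermat.Agent.S05.Inertia

/-!
# S42 piece [EC-1] (helper63): the mod-`p` representation of a Frey curve has finite level

If `E[p](ℚ̄)` is finite (S13 `StmtCard`), the field generated by the coordinates of the
`p`-torsion points is a finite extension of `ℚ`, and every `σ` fixing it acts trivially.
-/

set_option autoImplicit false

namespace Fermat.Agent.S42

open WeierstrassCurve WeierstrassCurve.Affine WeierstrassCurve.Affine.Point
open Fermat.Agent.ES

/-- the coordinates of a point (`∅` for the point at infinity) -/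
noncomputable def freyField_coords {W : WeierstrassCurve (AlgebraicClosure ℚ)} :
    W.toAffine.Point → Set (AlgebraicClosure ℚ)
  | .zero => ∅
  | .some x y _ => {x, y}

lemma freyField_coords_finite {W : WeierstrassCurve (AlgebraicClosure ℚ)}
    (P : W.toAffine.Point) : (freyField_coords P).Finite := by
  cases P with
  | zero => exact Set.finite_empty
  | some x y h =>
    show ({x, y} : Set (AlgebraicClosure ℚ)).Finite
    exact Set.toFinite _

/-- General form: a finite torsion module of a curve over `ℚ` has finite level. -/
theorem finite_level_of_finite_torsion (W : WeierstrassCurve ℚ) (n : ℕ)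
    (hfin : Finite (Submodule.torsionBy ℤ (W⁄(AlgebraicClosure ℚ)).Point n)) :
    ∃ E : IntermediateField ℚ (AlgebraicClosure ℚ), FiniteDimensional ℚ E ∧
      ∀ σ : GQ, FixesField E σ →
        ∀ x : Submodule.torsionBy ℤ (W⁄(AlgebraicClosure ℚ)).Point n, σ • x = x := by
  classical
  set T := Submodule.torsionBy ℤ (W⁄(AlgebraicClosure ℚ)).Point n with hT
  let S : Set (AlgebraicClosure ℚ) := ⋃ x : T, freyField_coords (x : (W⁄(AlgebraicClosure ℚ)).Point)
  have hS : S.Finite := Set.finite_iUnion fun x => freyField_coords_finite _
  have hSf : Finite S := hS.to_subtype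
  have halg := Fermat.Agent.S05.isAlgebraic_rat_qbar_of inferInstance
  refine ⟨IntermediateField.adjoin ℚ S, ?_, ?_⟩
  · exact IntermediateField.finiteDimensional_adjoin
      (fun x _ => (halg.isAlgebraic x).isIntegral)
  · intro σ hσ x
    apply Subtype.ext
    show σ • (x : (W⁄(AlgebraicClosure ℚ)).Point) = x
    have hmem : ∀ z ∈ freyField_coords (x : (W⁄(AlgebraicClosure ℚ)).Point), σ z = z := by
      intro z hz
      apply hσ
      apply IntermediateField.subset_adjoin
      exact Set.mem_iUnion.mpr ⟨x, hz⟩
    generalize (x : (W⁄(AlgebraicClosure ℚ)).Point) = Q at hmem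
    cases Q with
    | zero => rfl
    | some a b h =>
      exact Fermat.Agent.S05.galois_smul_some_eq_self σ h
        (hmem a (by simp [freyField_coords])) (hmem b (by simp [freyField_coords]))

/-- [EC-1] from finiteness of `E[p](ℚ̄)`. -/
theorem stmtFreyField_of_finite
    (hfin : ∀ P : FreyPackage, Finite (Fermat.Agent.S13.Tors P)) : StmtFreyField := by
  intro P
  obtain ⟨E, hE, h⟩ := finite_level_of_finite_torsion P.freyCurve P.p (hfin P)
  refine ⟨E, hE, fun σ hσ => ?_⟩
  apply LinearMap.ext
  intro x
  exact h σ hσ x

/-- [EC-1] from S13's `StmtCard`. -/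
theorem stmtFreyField_of_card (hcard : Fermat.Agent.S13.StmtCard) : StmtFreyField :=
  stmtFreyField_of_finite fun P => (hcard P).1

end Fermat.Agent.S42
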