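import Fermat.Agent.S42.Plan

/-!
# S42 piece [Gal-1]: finitely many finite extensions lie in a finite normal extension
-/

set_option autoImplicit false
set_option linter.style.haveILetI false

noncomputable section

namespace Fermat.Agent.S42

open IntermediateField

/-- `ℚ̄/ℚ` is normal (for the `Algebra ℚ ℚ̄` instance found by unification). -/
theorem hull_normal_qbar : Normal ℚ (AlgebraicClosure ℚ) := by
  haveI : Algebra.IsAlgebraic ℚ (AlgebraicClosure ℚ) := AlgebraicClosure.isAlgebraic ℚ
  haveI : IsAlgClosure ℚ (AlgebraicClosure ℚ) := ⟨inferInstance, inferInstance⟩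
  exact IsAlgClosure.normal ℚ (AlgebraicClosure ℚ)

/-- A finite supremum of finite-dimensional intermediate fields is finite-dimensional. -/
theorem finiteDimensional_finset_sup
    (s : Finset (IntermediateField ℚ (AlgebraicClosure ℚ)))
    (hs : ∀ E ∈ s, FiniteDimensional ℚ E) :
    FiniteDimensional ℚ (s.sup id : IntermediateField ℚ (AlgebraicClosure ℚ)) := by
  classical
  induction s using Finset.induction_on with
  | empty =>
    rw [Finset.sup_empty]
    exact (IntermediateField.botEquiv ℚ (AlgebraicClosure ℚ)).symm.toLinearEquiv.finiteDimensional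
  | insert a t hat ih =>
    rw [Finset.sup_insert]
    haveI h1 : FiniteDimensional ℚ a := hs a (Finset.mem_insert_self a t)
    haveI h2 : FiniteDimensional ℚ (t.sup id : IntermediateField ℚ (AlgebraicClosure ℚ)) :=
      ih fun E hE => hs E (Finset.mem_insert_of_mem hE)
    exact IntermediateField.finiteDimensional_sup a (t.sup id)

/-- [Gal-1] -/
theorem stmtHull : StmtHull := by
  intro s hs
  haveI hfin := finiteDimensional_finset_sup s hs
  haveI := hull_normal_qbar
  refine ⟨IntermediateField.normalClosure ℚ (s.sup id : IntermediateField ℚ (AlgebraicClosure ℚ))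
    (AlgebraicClosure ℚ), ?_, ?_, ?_⟩
  · have h := normalClosure.is_finiteDimensional ℚ
      (s.sup id : IntermediateField ℚ (AlgebraicClosure ℚ)) (AlgebraicClosure ℚ)
    exact h
  · have h := normalClosure.normal ℚ
      (s.sup id : IntermediateField ℚ (AlgebraicClosure ℚ)) (AlgebraicClosure ℚ)
    convert h using 1
    exact Subsingleton.elim _ _
  · intro E hE
    have h1 : E ≤ s.sup id := by
      have := Finset.le_sup (f := id) hE
      simpa using this
    exact h1.trans (IntermediateField.le_normalClosure _)

end Fermat.Agent.S42
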