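import Fermat.Agent.S42.Plan
import Fermat.Agent.S22.Final
import Fermat.Agent.S49.QExp

/-!
# S42 piece [INT]: Hecke eigenvalues of a normalized eigenform are algebraic integers

For a normalized eigenform `g` of weight `2` on `Γ₀(M)` and a prime `ℓ ∤ M`:
* `heckeTLin_apply_eq_smul` : `T_ℓ g = a_ℓ(g) • g`;
* `isIntegral_qCoeff_prime` : `a_ℓ(g)` is integral over `ℤ` (the Hecke algebra is a finitely
  generated `ℤ`-module, S22);
* `stmtInt : StmtInt`.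
-/

set_option autoImplicit false

noncomputable section

namespace Fermat.Agent.S42

open ModularFormClass CongruenceSubgroup

/-- The Hecke relation `a_{nℓ} + ℓ a_{n/ℓ} = a_ℓ a_n` for a normalized eigenform, `ℓ ∤ M`. -/
theorem qCoeff_hecke_relation {M : ℕ} (g : CuspForm (Gamma0 M) 2)
    (hg : g.IsNormalizedEigenform) {ℓ : ℕ} (hℓ : ℓ.Prime) (hℓM : ¬ ℓ ∣ M) (n : ℕ) :
    qCoeff ⇑g (n * ℓ) + (if ℓ ∣ n then (ℓ : ℂ) * qCoeff ⇑g (n / ℓ) else 0) =
      qCoeff ⇑g ℓ * qCoeff ⇑g n := by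
  rcases Nat.eq_zero_or_pos n with rfl | hn
  · have h0 : qCoeff ⇑g 0 = 0 := Fermat.Agent.S49.qCoeff_zero_cusp g
    simp [h0]
  · obtain ⟨r, m, hm, rfl⟩ := Nat.exists_eq_pow_mul_and_not_dvd hn.ne' ℓ hℓ.ne_one
    have hcop : ∀ e : ℕ, (ℓ ^ e).Coprime m :=
      fun e => Nat.Coprime.pow_left e ((Nat.Prime.coprime_iff_not_dvd hℓ).mpr hm)
    rcases r with _ | r
    · -- `ℓ ∤ n`
      simp only [pow_zero, one_mul]
      rw [if_neg hm, add_zero, mul_comm m ℓ]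
      have := hg.qCoeff_mul_of_coprime ℓ m (by simpa using hcop 1)
      exact this
    · have hdvd : ℓ ∣ ℓ ^ (r + 1) * m := Dvd.dvd.mul_right (dvd_pow_self ℓ (Nat.succ_ne_zero r)) m
      rw [if_pos hdvd]
      have h1 : ℓ ^ (r + 1) * m * ℓ = ℓ ^ (r + 2) * m := by ring
      have h2 : ℓ ^ (r + 1) * m / ℓ = ℓ ^ r * m := by
        rw [pow_succ, mul_assoc, mul_comm ℓ m, ← mul_assoc]
        exact Nat.mul_div_cancel _ hℓ.pos
      rw [h1, h2, hg.qCoeff_mul_of_coprime _ _ (hcop (r + 2)),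
        hg.qCoeff_mul_of_coprime _ _ (hcop r), hg.qCoeff_mul_of_coprime _ _ (hcop (r + 1)),
        hg.qCoeff_prime_pow_of_not_dvd ℓ r hℓ hℓM]
      ring

/-- A normalized eigenform is an eigenvector of `T_ℓ` (`ℓ ∤ M`) with eigenvalue `a_ℓ`. -/
theorem heckeTLin_apply_eq_smul {M : ℕ} [NeZero M] (g : CuspForm (Gamma0 M) 2)
    (hg : g.IsNormalizedEigenform) {ℓ : ℕ} (hℓ : ℓ.Prime) (hℓM : ¬ ℓ ∣ M) :
    CuspForm.heckeTLin 2 hℓ hℓM g = qCoeff ⇑g ℓ • g := by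
  apply Fermat.Agent.S49.ext_of_qCoeff_eq
  intro n
  rw [Fermat.Agent.S49.qCoeff_heckeTLin hℓ hℓM g n, Fermat.Agent.S49.qCoeff_smul,
    ← qCoeff_hecke_relation g hg hℓ hℓM n]
  norm_num

theorem normalizedEigenform_ne_zero {M : ℕ} [NeZero M] (g : CuspForm (Gamma0 M) 2)
    (hg : g.IsNormalizedEigenform) : g ≠ 0 := by
  intro h
  have h1 := hg.qCoeff_one
  rw [h] at h1
  have h0 : qCoeff ⇑(0 : CuspForm (Gamma0 M) 2) 1 = 0 := by
    have := Fermat.Agent.S49.qCoeff_smul (0 : ℂ) (0 : CuspForm (Gamma0 M) 2) 1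
    simpa using this
  rw [h0] at h1
  exact zero_ne_one h1

/-- The eigenvalue `a_ℓ` of a normalized eigenform is an algebraic integer. -/
theorem isIntegral_qCoeff_prime {M : ℕ} [NeZero M] (g : CuspForm (Gamma0 M) 2)
    (hg : g.IsNormalizedEigenform) {ℓ : ℕ} (hℓ : ℓ.Prime) (hℓM : ¬ ℓ ∣ M) :
    IsIntegral ℤ (qCoeff ⇑g ℓ) := by
  have : Module.Finite ℤ (CuspForm.heckeAlgebra M 2 ∅) :=
    Fermat.Agent.S22.moduleFinite_heckeAlgebra M 2 ∅
  set T : CuspForm.heckeAlgebra M 2 ∅ := CuspForm.heckeAlgebra.T hℓ hℓM (Set.notMem_empty ℓ)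
    with hT
  obtain ⟨P, hPmonic, hP⟩ := IsIntegral.of_finite ℤ T
  refine ⟨P, hPmonic, ?_⟩
  -- evaluate `P(T_ℓ) = 0` on `g`
  have hP' : Polynomial.aeval (T : Module.End ℂ (CuspForm (Gamma0 M) 2)) P = 0 := by
    have := Polynomial.aeval_subalgebra_coe P (CuspForm.heckeAlgebra M 2 ∅) T
    rw [← this]
    have h0 : Polynomial.aeval T P = 0 := hP
    rw [h0]
    rfl
  rw [hT, CuspForm.heckeAlgebra.coe_T] at hP'
  have heig : Module.End.HasEigenvector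
      (CuspForm.heckeTLin 2 hℓ hℓM : Module.End ℂ (CuspForm (Gamma0 M) 2)) (qCoeff ⇑g ℓ) g := by
    refine ⟨?_, normalizedEigenform_ne_zero g hg⟩
    rw [Module.End.mem_eigenspace_iff]
    exact heckeTLin_apply_eq_smul g hg hℓ hℓM
  have h1 := Module.End.aeval_apply_of_hasEigenvector (p := P.map (algebraMap ℤ ℂ)) heig
  rw [Polynomial.aeval_map_algebraMap, hP', LinearMap.zero_apply] at h1
  have h2 : Polynomial.eval (qCoeff ⇑g ℓ) (P.map (algebraMap ℤ ℂ)) = 0 := by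
    rcases smul_eq_zero.mp h1.symm with h | h
    · exact h
    · exact absurd h (normalizedEigenform_ne_zero g hg)
  rw [Polynomial.eval_map] at h2
  exact h2

/-- [INT] -/
theorem stmtInt : StmtInt := by
  intro M hM g hg ℓ hℓ hℓM
  have : NeZero M := ⟨hM.ne'⟩
  exact ⟨⟨qCoeff ⇑g ℓ, isIntegral_qCoeff_prime g hg hℓ hℓM⟩, rfl⟩

end Fermat.Agent.S42
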