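import Fermat.Agent.S42.Plan

/-!
# S42 piece [NT-3]: the mod-`p` cyclotomic character

`stmtCyclo : StmtCyclo`: for every prime `p` the mod-`p` cyclotomic character
`ω : G_ℚ →* (ZMod p)ˣ` is trivial on `Gal(ℚ̄/ℚ(ζ_p))` and `ω(τ) = ℓ` for every Frobenius `τ`
at every valuation subring over a prime `ℓ ≠ p`.
-/

set_option autoImplicit false

noncomputable section

namespace Fermat.Agent.S42

open Fermat.Agent.ES

/-- the number of `p`-th roots of unity in `ℚ̄` -/
theorem cyclo_card (p : ℕ) [NeZero p] :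
    Nat.card (rootsOfUnity p (AlgebraicClosure ℚ)) = p :=
  haveI : NeZero (p : AlgebraicClosure ℚ) := ⟨Nat.cast_ne_zero.mpr (NeZero.ne p)⟩
  HasEnoughRootsOfUnity.natCard_rootsOfUnity (AlgebraicClosure ℚ) p

/-- the mod-`p` cyclotomic character of `G_ℚ` -/
def cycloChar (p : ℕ) [NeZero p] : GQ →* (ZMod p)ˣ :=
  (modularCyclotomicCharacter (AlgebraicClosure ℚ) (cyclo_card p)).comp
    (MulSemiringAction.toRingAut GQ (AlgebraicClosure ℚ))

theorem cycloChar_spec (p : ℕ) [NeZero p] (σ : GQ) {ζ : AlgebraicClosure ℚ}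
    (hζ : IsPrimitiveRoot ζ p) : σ ζ = ζ ^ ((cycloChar p σ : (ZMod p)ˣ) : ZMod p).val := by
  have h := modularCyclotomicCharacter.spec (AlgebraicClosure ℚ) (cyclo_card p)
    (MulSemiringAction.toRingAut GQ (AlgebraicClosure ℚ) σ)
    (t := hζ.toRootsOfUnity) (SetLike.coe_mem hζ.toRootsOfUnity)
  simpa [cycloChar] using h

/-- `ω σ = 1` if `σ` fixes a primitive `p`-th root of unity. -/
theorem cycloChar_eq_one (p : ℕ) [NeZero p] (σ : GQ) {ζ : AlgebraicClosure ℚ}
    (hζ : IsPrimitiveRoot ζ p) (h : σ ζ = ζ) : cycloChar p σ = 1 := by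
  have h1 := cycloChar_spec p σ hζ
  rw [h] at h1
  have h2 : ζ ^ 1 = ζ ^ ((cycloChar p σ : (ZMod p)ˣ) : ZMod p).val := by simpa using h1
  rcases Nat.lt_or_ge 1 p with hp | hp
  · have := hζ.pow_inj hp (ZMod.val_lt _) h2
    apply Units.ext
    have e : ((cycloChar p σ : (ZMod p)ˣ) : ZMod p)
        = ((((cycloChar p σ : (ZMod p)ˣ) : ZMod p).val : ℕ) : ZMod p) :=
      (ZMod.natCast_zmod_val _).symm
    rw [e, ← this]
    simp
  · have hp1 : p = 1 := le_antisymm hp (Nat.pos_of_ne_zero (NeZero.ne p))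
    subst hp1
    exact Subsingleton.elim _ _

/-- a root of unity lies in every valuation subring -/
theorem cyclo_mem_valuationSubring (A : ValuationSubring (AlgebraicClosure ℚ)) {p : ℕ} (hp : 0 < p)
    {ζ : AlgebraicClosure ℚ} (hζ : ζ ^ p = 1) : ζ ∈ A := by
  rcases A.mem_or_inv_mem ζ with h | h
  · exact h
  · have h1 : ζ = ζ⁻¹ ^ (p - 1) := by
      have hζ0 : ζ ≠ 0 := by
        rintro rfl
        rw [zero_pow hp.ne'] at hζ
        exact zero_ne_one hζ
      have : ζ * ζ ^ (p - 1) = 1 := by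
        rw [← pow_succ', Nat.sub_add_cancel hp, hζ]
      rw [inv_pow]
      exact eq_inv_of_mul_eq_one_left this
    rw [h1]
    exact pow_mem h _

/-- `p` is a unit at a valuation subring over `ℓ ≠ p`: its residue is nonzero. -/
theorem cyclo_residue_natCast_ne_zero (A : ValuationSubring (AlgebraicClosure ℚ)) {p ℓ : ℕ}
    (hp : p.Prime) (hℓ : ℓ.Prime) (hℓp : ℓ ≠ p) (hA : A.LiesOverPrime ℓ) :
    IsLocalRing.residue A (p : A) ≠ 0 := by
  intro h
  have hℓ0 : IsLocalRing.residue A (ℓ : A) = 0 := by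
    rw [IsLocalRing.residue_eq_zero_iff]
    obtain ⟨hmem, hmax⟩ := (A.mem_nonunits_iff_exists_mem_maximalIdeal).mp hA
    have : (⟨(ℓ : AlgebraicClosure ℚ), hmem⟩ : A) = (ℓ : A) := Subtype.ext (by simp)
    rwa [this] at hmax
  have hcop : Nat.Coprime p ℓ := (Nat.coprime_primes hp hℓ).mpr (Ne.symm hℓp)
  have hb := Nat.Coprime.isCoprime hcop
  obtain ⟨u, v, huv⟩ := hb
  have h1 : IsLocalRing.residue A ((u : A) * (p : A) + (v : A) * (ℓ : A)) = 1 := by
    have : ((u : A) * (p : A) + (v : A) * (ℓ : A)) = 1 := by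
      have := congrArg (fun z : ℤ => (z : A)) huv
      simpa using this
    rw [this, map_one]
  rw [map_add, map_mul, map_mul, h, hℓ0, mul_zero, mul_zero, add_zero] at h1
  exact zero_ne_one h1

/-- `ω(τ) = ℓ` for a Frobenius `τ` at a valuation subring over `ℓ ≠ p`. -/
theorem cycloChar_frob (p : ℕ) [NeZero p] (hp : p.Prime) (ℓ : ℕ) (hℓ : ℓ.Prime) (hℓp : ℓ ≠ p)
    (A : ValuationSubring (AlgebraicClosure ℚ)) (hA : A.LiesOverPrime ℓ) (τ : GQ)
    (hτ : A.IsFrobeniusAt τ ℓ) :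
    ((cycloChar p τ : (ZMod p)ˣ) : ZMod p) = (ℓ : ZMod p) := by
  have : NeZero (p : AlgebraicClosure ℚ) := ⟨Nat.cast_ne_zero.mpr (NeZero.ne p)⟩
  obtain ⟨ζ, hζ⟩ := HasEnoughRootsOfUnity.exists_primitiveRoot (AlgebraicClosure ℚ) p
  have hζA : ζ ∈ A := cyclo_mem_valuationSubring A hp.pos hζ.pow_eq_one
  set z : A := ⟨ζ, hζA⟩ with hz
  set a : ℕ := ((cycloChar p τ : (ZMod p)ˣ) : ZMod p).val with ha
  have hmem := hτ.mem_decompositionSubgroup
  -- the action on `z`
  have e1 : ((⟨τ, hmem⟩ : A.decompositionSubgroup ℚ) • z : A) = z ^ a := by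
    apply Subtype.ext
    show τ ζ = ((z ^ a : A) : AlgebraicClosure ℚ)
    rw [cycloChar_spec p τ hζ]
    rfl
  have e2 := hτ.smul_residue_eq (IsLocalRing.residue A z)
  rw [← IsLocalRing.ResidueField.residue_smul, e1, map_pow] at e2
  -- the residue of `ζ` has order `p`
  set zb := IsLocalRing.residue A z with hzb
  have hzbp : zb ^ p = 1 := by
    rw [hzb, ← map_pow]
    have : z ^ p = 1 := Subtype.ext (by simpa [hz] using hζ.pow_eq_one)
    rw [this, map_one]
  have hzb1 : zb ≠ 1 := by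
    intro h1
    have hsum : ∑ i ∈ Finset.range p, ζ ^ i = 0 := hζ.geom_sum_eq_zero hp.one_lt
    have hsumA : ∑ i ∈ Finset.range p, z ^ i = 0 := by
      apply Subtype.ext
      simpa [hz] using hsum
    have := congrArg (IsLocalRing.residue A) hsumA
    rw [map_sum, map_zero] at this
    simp only [map_pow, ← hzb, h1, one_pow, Finset.sum_const, Finset.card_range,
      nsmul_eq_mul, mul_one] at this
    have h2 : IsLocalRing.residue A (p : A) = 0 := by simpa using this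
    exact cyclo_residue_natCast_ne_zero A hp hℓ hℓp hA h2
  have hzb0 : zb ≠ 0 := by
    intro h0
    rw [h0, zero_pow hp.ne_zero] at hzbp
    exact zero_ne_one hzbp
  set u : (IsLocalRing.ResidueField A)ˣ := Units.mk0 zb hzb0 with hu
  have hup : u ^ p = 1 := Units.ext (by simpa [hu] using hzbp)
  have hu1 : u ≠ 1 := fun h => hzb1 (by simpa [hu] using congrArg Units.val h)
  have : Fact p.Prime := ⟨hp⟩
  have hord : orderOf u = p := orderOf_eq_prime hup hu1
  have hue : u ^ a = u ^ ℓ := Units.ext (by simpa [hu] using e2)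
  have hmod : a ≡ ℓ [MOD p] := by
    have := (pow_eq_pow_iff_modEq (x := u) (n := a) (m := ℓ)).mp hue
    rwa [hord] at this
  have h3 : ((a : ℕ) : ZMod p) = (ℓ : ZMod p) := (ZMod.natCast_eq_natCast_iff _ _ _).mpr hmod
  rw [← h3, ha, ZMod.natCast_zmod_val]

/-- **[NT-3]** -/
theorem stmtCyclo : StmtCyclo := by
  intro p hp
  have : NeZero p := ⟨hp.ne_zero⟩
  have : NeZero (p : AlgebraicClosure ℚ) := ⟨Nat.cast_ne_zero.mpr (NeZero.ne p)⟩
  obtain ⟨ζ, hζ⟩ := HasEnoughRootsOfUnity.exists_primitiveRoot (AlgebraicClosure ℚ) p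
  refine ⟨cycloChar p, ⟨IntermediateField.adjoin ℚ {ζ}, ?_, ?_⟩, ?_⟩
  · have hint : IsIntegral ℚ ζ := (hζ.isIntegral hp.pos).tower_top
    exact IntermediateField.adjoin.finiteDimensional hint
  · intro σ hσ
    apply cycloChar_eq_one p σ hζ
    exact hσ ζ (IntermediateField.mem_adjoin_simple_self ℚ ζ)
  · intro ℓ hℓ hℓp A hA τ hτ
    exact cycloChar_frob p hp ℓ hℓ hℓp A hA τ hτ

end Fermat.Agent.S42
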