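import Mathlib

/-!
# Burnside's theorem in arbitrary finite dimension

`Fermat.Agent.S42.burnside_subalgebra_eq_top`: over an algebraically closed field, a subalgebra of
`End_K W` (`W` finite-dimensional, nonzero) with no proper nonzero stable subspace is everything.
Proof: Schur's lemma and the Jacobson density theorem (both in Mathlib).
-/

set_option autoImplicit false

namespace Fermat.Agent.S42

open Module

variable {K W : Type*} [Field K] [AddCommGroup W] [Module K W]

theorem burnside_isSimpleModule (B : Subalgebra K (Module.End K W)) [Nontrivial W]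
    (irr : ∀ U : Submodule K W, (∀ b ∈ B, ∀ x ∈ U, b x ∈ U) → U = ⊥ ∨ U = ⊤) :
    IsSimpleModule B W := by
  rw [isSimpleModule_iff]
  refine { exists_pair_ne := ⟨⊥, ⊤, bot_ne_top⟩, eq_bot_or_eq_top := ?_ }
  intro U
  rcases irr (U.restrictScalars K) (fun b hb x hx => U.smul_mem ⟨b, hb⟩ hx) with h | h
  · left
    rw [eq_bot_iff]
    intro x hx
    have : x ∈ U.restrictScalars K := hx
    rw [h] at this
    exact this
  · right
    rw [eq_top_iff]
    intro x _
    have : x ∈ U.restrictScalars K := by rw [h]; trivial
    exact this

theorem burnside_subalgebra_eq_top [IsAlgClosed K] [FiniteDimensional K W] [Nontrivial W]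
    (B : Subalgebra K (Module.End K W))
    (irr : ∀ U : Submodule K W, (∀ b ∈ B, ∀ x ∈ U, b x ∈ U) → U = ⊥ ∨ U = ⊤) :
    B = ⊤ := by
  have hs : IsSimpleModule B W := burnside_isSimpleModule B irr
  have schur := IsSimpleModule.algebraMap_end_bijective_of_isAlgClosed (A := B) (V := W) K
  have hfin : Module.Finite (Module.End B W) W := by
    obtain ⟨s, hs⟩ := (Module.finite_def (R := K) (M := W)).mp inferInstance
    refine ⟨s, ?_⟩
    rw [eq_top_iff]
    rintro x -
    have hx : x ∈ Submodule.span K (s : Set W) := by rw [hs]; trivial
    clear hs
    induction hx using Submodule.span_induction with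
    | mem y hy => exact Submodule.subset_span hy
    | zero => exact Submodule.zero_mem _
    | add y z _ _ hy hz => exact Submodule.add_mem _ hy hz
    | smul c y _ hy =>
      have : c • y = (algebraMap K (Module.End B W) c) • y := by
        simp
      rw [this]
      exact Submodule.smul_mem _ _ hy
  have dens := Module.Finite.toModuleEnd_moduleEnd_surjective (R := B) (M := W)
  rw [eq_top_iff]
  intro f _
  let f' : Module.End (Module.End B W) W :=
    { toFun := f
      map_add' := f.map_add
      map_smul' := fun φ w => by
        obtain ⟨c, hc⟩ := schur.2 φ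
        rw [← hc]
        simp }
  obtain ⟨b, hb⟩ := dens f'
  have hbf : (b : Module.End K W) = f := by
    ext w
    have := congrArg (fun g : Module.End (Module.End B W) W => g w) hb
    exact this
  exact hbf ▸ b.2

end Fermat.Agent.S42
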