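import Mathlib

/-!
# BLR-lite, matrix form

Let `R : G →* M_d(K)` span `M_d(K)`, `ω : G →* Kˣ` and `c : G → K` with
`R σ + ω σ • R σ⁻¹ = c σ • 1` for all `σ`.  Then `d ≤ 2`, and if `d = 2` then
`trace (R σ) = c σ` and `det (R σ) = ω σ`.
-/

set_option autoImplicit false

namespace Fermat.Agent.S42

open Matrix

variable {K : Type*} [Field K] {G : Type*} [Group G] {d : ℕ}

/-- the polarised identity -/
theorem blr_polar (R : G →* Matrix (Fin d) (Fin d) K) (ω : G →* Kˣ) (c : G → K)
    (h : ∀ σ, R σ + ((ω σ : Kˣ) : K) • R σ⁻¹ = c σ • (1 : Matrix (Fin d) (Fin d) K)) (σ τ : G) :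
    R σ * R τ + R τ * R σ - c σ • R τ - c τ • R σ +
      (c σ * c τ - c (σ * τ)) • (1 : Matrix (Fin d) (Fin d) K) = 0 := by
  have hσ : ((ω σ : Kˣ) : K) • R σ⁻¹ = c σ • (1 : Matrix (Fin d) (Fin d) K) - R σ :=
    eq_sub_of_add_eq' (h σ)
  have hτ : ((ω τ : Kˣ) : K) • R τ⁻¹ = c τ • (1 : Matrix (Fin d) (Fin d) K) - R τ :=
    eq_sub_of_add_eq' (h τ)
  have hστ := h (σ * τ)
  have e1 : ((ω (σ * τ) : Kˣ) : K) • R (σ * τ)⁻¹ =
      (((ω τ : Kˣ) : K) • R τ⁻¹) * (((ω σ : Kˣ) : K) • R σ⁻¹) := by
    rw [_root_.mul_inv_rev, map_mul, map_mul, Units.val_mul, smul_mul_smul_comm, mul_comm]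
  rw [e1, hσ, hτ, map_mul] at hστ
  have e2 : (c τ • (1 : Matrix (Fin d) (Fin d) K) - R τ) * (c σ • 1 - R σ)
      = (c σ * c τ) • (1 : Matrix (Fin d) (Fin d) K) - c τ • R σ - c σ • R τ + R τ * R σ := by
    simp only [sub_mul, mul_sub, smul_mul_assoc, mul_smul_comm, one_mul, mul_one, smul_smul,
      smul_sub]
    abel
  rw [e2] at hστ
  rw [sub_smul, ← hστ]
  abel

end Fermat.Agent.S42

namespace Fermat.Agent.S42

open Matrix

variable {K : Type*} [Field K] {G : Type*} [Group G] {d : ℕ}

/-- if all matrices of size `d ≥ 2` are scalar we have a contradiction -/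
theorem blr_not_all_scalar (hd : 2 ≤ d)
    (h : ∀ X : Matrix (Fin d) (Fin d) K, ∃ a : K, X = a • (1 : Matrix (Fin d) (Fin d) K)) :
    False := by
  obtain ⟨a, ha⟩ := h (Matrix.single (⟨0, by omega⟩ : Fin d) (⟨1, by omega⟩ : Fin d) (1 : K))
  have h01 : (⟨0, by omega⟩ : Fin d) ≠ ⟨1, by omega⟩ := by
    intro h; simp [Fin.ext_iff] at h
  have := congrFun (congrFun ha ⟨0, by omega⟩) ⟨1, by omega⟩
  simp [h01] at this

/-- the linear functional `t` with `t (R σ) = c σ` -/
theorem blr_exists_trace (hd : 2 ≤ d) (R : G →* Matrix (Fin d) (Fin d) K) (ω : G →* Kˣ)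
    (c : G → K)
    (h : ∀ σ, R σ + ((ω σ : Kˣ) : K) • R σ⁻¹ = c σ • (1 : Matrix (Fin d) (Fin d) K))
    (hspan : Submodule.span K (Set.range R) = ⊤) :
    ∃ t : Matrix (Fin d) (Fin d) K →ₗ[K] K, ∀ σ, t (R σ) = c σ := by
  classical
  set L : (G →₀ K) →ₗ[K] Matrix (Fin d) (Fin d) K := Finsupp.linearCombination K (fun σ => R σ)
    with hL
  set C : (G →₀ K) →ₗ[K] K := Finsupp.linearCombination K c with hC
  have hLrange : L.range = ⊤ := by
    rw [hL, Finsupp.range_linearCombination]
    exact hspan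
  -- kernel inclusion
  have hker : ∀ x : G →₀ K, L x = 0 → C x = 0 := by
    intro x hx
    by_contra hne
    apply blr_not_all_scalar (K := K) hd
    -- every R τ is scalar
    have hscal : ∀ τ, ∃ a : K, R τ = a • (1 : Matrix (Fin d) (Fin d) K) := by
      intro τ
      have hsum : x.sum (fun σ a => a • (R σ * R τ + R τ * R σ - c σ • R τ - c τ • R σ +
          (c σ * c τ - c (σ * τ)) • (1 : Matrix (Fin d) (Fin d) K))) = 0 := by
        apply Finset.sum_eq_zero
        intro σ _
        show x σ • _ = 0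
        rw [blr_polar R ω c h σ τ, smul_zero]
      have hLx : L x = x.sum (fun σ a => a • R σ) := by
        rw [hL, Finsupp.linearCombination_apply]
      have hCx : C x = x.sum (fun σ a => a * c σ) := by
        rw [hC, Finsupp.linearCombination_apply]
        rfl
      have e : x.sum (fun σ a => a • (R σ * R τ + R τ * R σ - c σ • R τ - c τ • R σ +
          (c σ * c τ - c (σ * τ)) • (1 : Matrix (Fin d) (Fin d) K)))
          = L x * R τ + R τ * L x - C x • R τ - c τ • L x
            + (C x * c τ - x.sum (fun σ a => a * c (σ * τ))) • (1 : Matrix (Fin d) (Fin d) K) := by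
        rw [hLx, hCx]
        simp only [Finsupp.sum, Finset.sum_mul, Finset.mul_sum, Finset.sum_smul, Finset.smul_sum,
          ← Finset.sum_add_distrib, ← Finset.sum_sub_distrib, sub_smul]
        apply Finset.sum_congr rfl
        intro σ _
        simp only [smul_add, smul_sub, smul_mul_assoc, mul_smul_comm, smul_smul, mul_assoc]
        rw [mul_comm (c τ) (x σ)]
      rw [e, hx] at hsum
      simp only [zero_mul, mul_zero, smul_zero, add_zero, sub_zero, zero_sub] at hsum
      refine ⟨(C x)⁻¹ * (C x * c τ - x.sum (fun σ a => a * c (σ * τ))), ?_⟩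
      have h2 : C x • R τ = (C x * c τ - x.sum (fun σ a => a * c (σ * τ))) •
          (1 : Matrix (Fin d) (Fin d) K) := by
        have := hsum
        rw [neg_add_eq_zero] at this
        exact this
      rw [mul_smul, ← h2, smul_smul, inv_mul_cancel₀ hne, one_smul]
    intro X
    have hX : X ∈ Submodule.span K (Set.range R) := by rw [hspan]; trivial
    induction hX using Submodule.span_induction with
    | mem Y hY =>
      obtain ⟨τ, rfl⟩ := hY
      exact hscal τ
    | zero => exact ⟨0, by simp⟩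
    | add Y Z _ _ hY hZ =>
      obtain ⟨a, ha⟩ := hY
      obtain ⟨b, hb⟩ := hZ
      exact ⟨a + b, by rw [ha, hb, add_smul]⟩
    | smul a Y _ hY =>
      obtain ⟨b, hb⟩ := hY
      exact ⟨a * b, by rw [hb, smul_smul]⟩
  obtain ⟨s, hs⟩ := L.exists_rightInverse_of_surjective hLrange
  refine ⟨C.comp s, fun σ => ?_⟩
  have h1 : L (s (R σ)) = R σ := by
    have := congrArg (fun f => f (R σ)) hs
    simpa using this
  have h2 : L (Finsupp.single σ (1 : K)) = R σ := by
    rw [hL, Finsupp.linearCombination_single, one_smul]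
  have h3 : C (s (R σ) - Finsupp.single σ (1 : K)) = 0 := by
    apply hker
    rw [map_sub, h1, h2, sub_self]
  rw [map_sub, sub_eq_zero] at h3
  rw [LinearMap.comp_apply, h3, hC, Finsupp.linearCombination_single, smul_eq_mul, one_mul]

end Fermat.Agent.S42

namespace Fermat.Agent.S42

open Matrix

variable {K : Type*} [Field K] {G : Type*} [Group G] {d : ℕ}

/-- the bilinear identity on all of `M_d(K)` -/
theorem blr_bilinear (R : G →* Matrix (Fin d) (Fin d) K) (ω : G →* Kˣ)
    (c : G → K)
    (h : ∀ σ, R σ + ((ω σ : Kˣ) : K) • R σ⁻¹ = c σ • (1 : Matrix (Fin d) (Fin d) K))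
    (hspan : Submodule.span K (Set.range R) = ⊤)
    (t : Matrix (Fin d) (Fin d) K →ₗ[K] K) (ht : ∀ σ, t (R σ) = c σ)
    (X Y : Matrix (Fin d) (Fin d) K) :
    X * Y + Y * X - t X • Y - t Y • X + (t X * t Y - t (X * Y)) • (1 : Matrix (Fin d) (Fin d) K)
      = 0 := by
  let B : Matrix (Fin d) (Fin d) K →ₗ[K] Matrix (Fin d) (Fin d) K →ₗ[K] Matrix (Fin d) (Fin d) K :=
    LinearMap.mk₂ K (fun X Y => X * Y + Y * X - t X • Y - t Y • X +
        (t X * t Y - t (X * Y)) • (1 : Matrix (Fin d) (Fin d) K))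
      (fun X₁ X₂ Y => by
        simp only [add_mul, mul_add, map_add, add_smul, smul_add, sub_smul]
        abel)
      (fun a X Y => by
        simp only [smul_mul_assoc, mul_smul_comm, map_smul, smul_eq_mul, smul_add, smul_sub,
          smul_smul, sub_smul, mul_assoc]
        rw [mul_comm (t Y) a])
      (fun X Y₁ Y₂ => by
        simp only [add_mul, mul_add, map_add, add_smul, smul_add, sub_smul]
        abel)
      (fun a X Y => by
        simp only [smul_mul_assoc, mul_smul_comm, map_smul, smul_eq_mul, smul_add, smul_sub,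
          smul_smul, sub_smul, mul_left_comm (t X) a]
        rw [mul_comm (t X) a])
  have hB : B = 0 := by
    apply LinearMap.ext_on hspan
    rintro _ ⟨σ, rfl⟩
    apply LinearMap.ext_on hspan
    rintro _ ⟨τ, rfl⟩
    show R σ * R τ + R τ * R σ - t (R σ) • R τ - t (R τ) • R σ +
        (t (R σ) * t (R τ) - t (R σ * R τ)) • (1 : Matrix (Fin d) (Fin d) K) = 0
    have e : t (R σ * R τ) = c (σ * τ) := by rw [← map_mul, ht]
    rw [e, ht, ht]
    exact blr_polar R ω c h σ τ
  have := congrArg (fun f => f X Y) hB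
  exact this

end Fermat.Agent.S42

namespace Fermat.Agent.S42

open Matrix

variable {K : Type*} [Field K] {G : Type*} [Group G] {d : ℕ}

/-- dimension at most two -/
theorem blr_dim_le_two (R : G →* Matrix (Fin d) (Fin d) K) (ω : G →* Kˣ)
    (c : G → K)
    (h : ∀ σ, R σ + ((ω σ : Kˣ) : K) • R σ⁻¹ = c σ • (1 : Matrix (Fin d) (Fin d) K))
    (hspan : Submodule.span K (Set.range R) = ⊤) : d ≤ 2 := by
  by_contra hd
  push Not at hd
  obtain ⟨t, ht⟩ := blr_exists_trace (by omega) R ω c h hspan
  set i : Fin d := ⟨0, by omega⟩ with hi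
  set j : Fin d := ⟨1, by omega⟩ with hj
  set k : Fin d := ⟨2, by omega⟩ with hk
  have hij : i ≠ j := by intro h; simp [hi, hj, Fin.ext_iff] at h
  have hjk : j ≠ k := by intro h; simp [hj, hk, Fin.ext_iff] at h
  have hik : i ≠ k := by intro h; simp [hi, hk, Fin.ext_iff] at h
  have key := blr_bilinear R ω c h hspan t ht (Matrix.single i j (1 : K))
    (Matrix.single j k (1 : K))
  rw [Matrix.single_mul_single_same, Matrix.single_mul_single_of_ne _ _ _ _ hik.symm] at key
  have := congrFun (congrFun key i) k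
  simp [hjk, hik, hij.symm] at this

/-- in dimension two, `t` is the trace -/
theorem blr_trace_eq (R : G →* Matrix (Fin 2) (Fin 2) K) (ω : G →* Kˣ)
    (c : G → K)
    (h : ∀ σ, R σ + ((ω σ : Kˣ) : K) • R σ⁻¹ = c σ • (1 : Matrix (Fin 2) (Fin 2) K))
    (hspan : Submodule.span K (Set.range R) = ⊤) (σ : G) : (R σ).trace = c σ := by
  obtain ⟨t, ht⟩ := blr_exists_trace (le_refl 2) R ω c h hspan
  have key := blr_bilinear R ω c h hspan t ht
  -- off-diagonal units
  have hoff : ∀ i j : Fin 2, i ≠ j → t (Matrix.single j i (1 : K)) = 0 := by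
    intro i j hij
    have k1 := key (Matrix.single i j (1 : K)) (Matrix.single j i (1 : K))
    rw [Matrix.single_mul_single_same, Matrix.single_mul_single_same] at k1
    have := congrFun (congrFun k1 i) j
    simpa [Matrix.single_apply, Matrix.one_apply, hij, hij.symm] using this
  have hdiag : ∀ i j : Fin 2, i ≠ j → t (Matrix.single i i (1 : K)) = 1 := by
    intro i j hij
    have k1 := key (Matrix.single i j (1 : K)) (Matrix.single j i (1 : K))
    rw [Matrix.single_mul_single_same, Matrix.single_mul_single_same] at k1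
    have := congrFun (congrFun k1 i) i
    simp [hij.symm, hoff i j hij, hoff j i hij.symm] at this
    linear_combination -this
  have ht_eq : t = Matrix.traceLinearMap (Fin 2) K K := by
    apply Matrix.ext_linearMap
    intro i j
    apply LinearMap.ext
    intro a
    have e : Matrix.single i j a = a • Matrix.single i j (1 : K) := by
      rw [Matrix.smul_single, smul_eq_mul, mul_one]
    simp only [LinearMap.comp_apply, Matrix.singleLinearMap_apply, Matrix.traceLinearMap_apply]
    rw [e, map_smul, Matrix.trace_smul]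
    by_cases hij : i = j
    · subst hij
      have : ∃ j : Fin 2, i ≠ j := by
        fin_cases i
        · exact ⟨1, by decide⟩
        · exact ⟨0, by decide⟩
      obtain ⟨j, hj⟩ := this
      rw [hdiag i j hj, Matrix.trace_single_eq_same]
    · rw [hoff j i (Ne.symm hij), Matrix.trace_single_eq_of_ne _ _ _ hij]
  rw [← ht σ, ht_eq, Matrix.traceLinearMap_apply]

end Fermat.Agent.S42

namespace Fermat.Agent.S42

open Matrix

variable {K : Type*} [Field K] {G : Type*} [Group G] {d : ℕ}

/-- in dimension two, the determinant is `ω` -/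
theorem blr_det_eq (R : G →* Matrix (Fin 2) (Fin 2) K) (ω : G →* Kˣ)
    (c : G → K)
    (h : ∀ σ, R σ + ((ω σ : Kˣ) : K) • R σ⁻¹ = c σ • (1 : Matrix (Fin 2) (Fin 2) K))
    (hspan : Submodule.span K (Set.range R) = ⊤) (σ : G) : (R σ).det = ((ω σ : Kˣ) : K) := by
  have htr := blr_trace_eq R ω c h hspan σ
  -- the quadratic relation
  have hq : R σ * R σ - c σ • R σ + ((ω σ : Kˣ) : K) • (1 : Matrix (Fin 2) (Fin 2) K) = 0 := by
    have h1 : R σ * R σ⁻¹ = 1 := by rw [← map_mul, mul_inv_cancel, map_one]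
    have h2 := congrArg (fun X => R σ * X) (h σ)
    simp only [mul_add, mul_smul_comm, h1, mul_one] at h2
    rw [← h2]
    abel
  -- Cayley–Hamilton
  have hch : R σ * R σ - (R σ).trace • R σ + (R σ).det • (1 : Matrix (Fin 2) (Fin 2) K) = 0 := by
    have := Matrix.aeval_self_charpoly (R σ)
    rw [Matrix.charpoly_fin_two] at this
    simp only [map_add, map_sub, map_pow, map_mul, Polynomial.aeval_X, Polynomial.aeval_C] at this
    rw [← this, pow_two, Algebra.algebraMap_eq_smul_one, Algebra.algebraMap_eq_smul_one,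
      smul_mul_assoc, one_mul]
  rw [htr] at hch
  have hsub : ((R σ).det - ((ω σ : Kˣ) : K)) • (1 : Matrix (Fin 2) (Fin 2) K) = 0 := by
    rw [sub_smul]
    have := congrArg₂ (· - ·) hch hq
    simp only [sub_self] at this
    rw [← this]
    abel
  have := congrFun (congrFun hsub 0) 0
  simp only [Matrix.smul_apply, Matrix.one_apply_eq, smul_eq_mul, mul_one, Matrix.zero_apply]
    at this
  exact sub_eq_zero.mp this

/-- the one-dimensional case: a character `χ` with `χ + ω χ⁻¹ = c` gives `χ ⊕ ω χ⁻¹` -/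
theorem blr_dim_one (R : G →* Matrix (Fin 1) (Fin 1) K) (ω : G →* Kˣ)
    (c : G → K)
    (h : ∀ σ, R σ + ((ω σ : Kˣ) : K) • R σ⁻¹ = c σ • (1 : Matrix (Fin 1) (Fin 1) K)) :
    ∃ ρ' : G →* Matrix (Fin 2) (Fin 2) K,
      (∀ σ, R σ = 1 → ω σ = 1 → ρ' σ = 1) ∧
      ∀ σ, (ρ' σ).trace = c σ ∧ (ρ' σ).det = ((ω σ : Kˣ) : K) := by
  -- the character
  let χ : G →* K :=
    { toFun := fun σ => R σ 0 0
      map_one' := by simp
      map_mul' := fun σ τ => by simp [Matrix.mul_apply] }
  have hχinv : ∀ σ, χ σ * χ σ⁻¹ = 1 := by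
    intro σ
    rw [← map_mul, mul_inv_cancel, map_one]
  have hχne : ∀ σ, χ σ ≠ 0 := by
    intro σ h0
    have := hχinv σ
    rw [h0, zero_mul] at this
    exact zero_ne_one this
  have hχinv' : ∀ σ, χ σ⁻¹ = (χ σ)⁻¹ := by
    intro σ
    exact eq_inv_of_mul_eq_one_right (hχinv σ)
  have hrel : ∀ σ, χ σ + ((ω σ : Kˣ) : K) * (χ σ)⁻¹ = c σ := by
    intro σ
    have := congrFun (congrFun (h σ) 0) 0
    simp only [Matrix.add_apply, Matrix.smul_apply, Matrix.one_apply_eq, smul_eq_mul, mul_one]
      at this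
    rw [← hχinv' σ]
    exact this
  let ρ' : G →* Matrix (Fin 2) (Fin 2) K :=
    { toFun := fun σ => Matrix.diagonal ![χ σ, ((ω σ : Kˣ) : K) * (χ σ)⁻¹]
      map_one' := by
        rw [← Matrix.diagonal_one]
        congr 1
        funext i
        fin_cases i <;> simp
      map_mul' := fun σ τ => by
        rw [Matrix.diagonal_mul_diagonal]
        congr 1
        funext i
        fin_cases i
        · simp
        · simp only [map_mul, Units.val_mul, Fin.mk_one, Fin.isValue, Matrix.cons_val_one,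
            Matrix.cons_val_zero, _root_.mul_inv_rev]
          ring }
  refine ⟨ρ', ?_, ?_⟩
  · intro σ hR hω
    show Matrix.diagonal ![χ σ, ((ω σ : Kˣ) : K) * (χ σ)⁻¹] = 1
    have hχ1 : χ σ = 1 := by
      show R σ 0 0 = 1
      rw [hR]; simp
    rw [hχ1, hω, ← Matrix.diagonal_one]
    congr 1
    funext i
    fin_cases i <;> simp
  · intro σ
    constructor
    · show (Matrix.diagonal ![χ σ, ((ω σ : Kˣ) : K) * (χ σ)⁻¹]).trace = c σ
      rw [Matrix.trace_fin_two]
      simp only [Matrix.diagonal_apply_eq, Matrix.cons_val_zero, Matrix.cons_val_one]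
      exact hrel σ
    · show (Matrix.diagonal ![χ σ, ((ω σ : Kˣ) : K) * (χ σ)⁻¹]).det = _
      rw [Matrix.det_diagonal, Fin.prod_univ_two]
      simp only [Matrix.cons_val_zero, Matrix.cons_val_one]
      field_simp [hχne σ]

end Fermat.Agent.S42
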