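import Mathlib
import Fermat.Agent.S42.Burnside
import Fermat.Agent.S42.BLRMatrix

/-!
# BLR-lite

`Fermat.Agent.S42.blr_lite`: let `K` be algebraically closed, `V₀ ≠ 0` a finite-dimensional
representation of a group `G`, `ω : G →* Kˣ`, and suppose every `σ` satisfies
`ρ₀ σ + ω σ • ρ₀ σ⁻¹ = c • 1` for some scalar `c`.  Then there is `ρ' : G →* M₂(K)`, trivial
wherever `ρ₀` and `ω` are, with `trace (ρ' σ) = c` and `det (ρ' σ) = ω σ`.
-/

set_option autoImplicit false

namespace Fermat.Agent.S42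

open Module

variable {K : Type*} [Field K] {G : Type*} [Group G]

/-- the irreducible case, with a chosen basis -/
theorem blr_irreducible_aux [IsAlgClosed K] {W : Type*} [AddCommGroup W] [Module K W]
    [FiniteDimensional K W] [Nontrivial W] (d : ℕ) (b : Basis (Fin d) K W)
    (ρ : G →* Module.End K W) (ω : G →* Kˣ) (c : G → K)
    (h : ∀ σ, ρ σ + ((ω σ : Kˣ) : K) • ρ σ⁻¹ = c σ • (1 : Module.End K W))
    (irr : ∀ U : Submodule K W, (∀ g, ∀ x ∈ U, ρ g x ∈ U) → U = ⊥ ∨ U = ⊤) :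
    ∃ ρ' : G →* Matrix (Fin 2) (Fin 2) K,
      (∀ σ, ρ σ = 1 → ω σ = 1 → ρ' σ = 1) ∧
      ∀ σ, (ρ' σ).trace = c σ ∧ (ρ' σ).det = ((ω σ : Kˣ) : K) := by
  classical
  -- Burnside
  have hB : Algebra.adjoin K (Set.range ρ) = ⊤ := by
    apply burnside_subalgebra_eq_top
    intro U hU
    exact irr U fun g x hx => hU (ρ g) (Algebra.subset_adjoin ⟨g, rfl⟩) x hx
  have hspanW : Submodule.span K (Set.range ρ) = ⊤ := by
    have h1 := Algebra.adjoin_eq_span K (Set.range ρ)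
    have h2 : (Submonoid.closure (Set.range ρ) : Set (Module.End K W)) = Set.range ρ := by
      have : Submonoid.closure (Set.range ρ) = MonoidHom.mrange ρ := by
        rw [← MonoidHom.coe_mrange, Submonoid.closure_eq]
      rw [this, MonoidHom.coe_mrange]
    rw [h2, hB] at h1
    rw [← h1]
    rfl
  -- matrices
  let e : Module.End K W ≃ₐ[K] Matrix (Fin d) (Fin d) K := LinearMap.toMatrixAlgEquiv b
  let R : G →* Matrix (Fin d) (Fin d) K := (e : Module.End K W →* Matrix (Fin d) (Fin d) K).comp ρ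
  have hR : ∀ σ, R σ = e (ρ σ) := fun σ => rfl
  have hrel : ∀ σ, R σ + ((ω σ : Kˣ) : K) • R σ⁻¹ = c σ • (1 : Matrix (Fin d) (Fin d) K) := by
    intro σ
    rw [hR, hR, ← map_smul, ← map_add, h σ, map_smul, map_one]
  have hspan : Submodule.span K (Set.range R) = ⊤ := by
    have : Set.range R = (e.toLinearMap : Module.End K W →ₗ[K] Matrix (Fin d) (Fin d) K) ''
        Set.range ρ := by
      ext X
      constructor
      · rintro ⟨σ, rfl⟩
        exact ⟨ρ σ, ⟨σ, rfl⟩, rfl⟩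
      · rintro ⟨_, ⟨σ, rfl⟩, rfl⟩
        exact ⟨σ, rfl⟩
    rw [this, Submodule.span_image, hspanW, Submodule.map_top]
    exact LinearMap.range_eq_top.mpr e.surjective
  have hd2 : d ≤ 2 := blr_dim_le_two R ω c hrel hspan
  have hd0 : 0 < d := by
    have h1 : finrank K W = d := by rw [Module.finrank_eq_card_basis b, Fintype.card_fin]
    rw [← h1]
    exact Module.finrank_pos
  have hone : ∀ σ, ρ σ = 1 → R σ = 1 := fun σ hσ => by rw [hR, hσ, map_one]
  clear_value R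
  clear hR e
  obtain rfl | rfl : d = 1 ∨ d = 2 := by omega
  · obtain ⟨ρ', h1, h2⟩ := blr_dim_one R ω c hrel
    exact ⟨ρ', fun σ hσ hω => h1 σ (hone σ hσ) hω, h2⟩
  · exact ⟨R, fun σ hσ _ => hone σ hσ,
      fun σ => ⟨blr_trace_eq R ω c hrel hspan σ, blr_det_eq R ω c hrel hspan σ⟩⟩

/-- the irreducible case -/
theorem blr_irreducible [IsAlgClosed K] {W : Type*} [AddCommGroup W] [Module K W]
    [FiniteDimensional K W] [Nontrivial W]
    (ρ : G →* Module.End K W) (ω : G →* Kˣ) (c : G → K)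
    (h : ∀ σ, ρ σ + ((ω σ : Kˣ) : K) • ρ σ⁻¹ = c σ • (1 : Module.End K W))
    (irr : ∀ U : Submodule K W, (∀ g, ∀ x ∈ U, ρ g x ∈ U) → U = ⊥ ∨ U = ⊤) :
    ∃ ρ' : G →* Matrix (Fin 2) (Fin 2) K,
      (∀ σ, ρ σ = 1 → ω σ = 1 → ρ' σ = 1) ∧
      ∀ σ, (ρ' σ).trace = c σ ∧ (ρ' σ).det = ((ω σ : Kˣ) : K) :=
  blr_irreducible_aux (finrank K W) (Module.finBasis K W) ρ ω c h irr

end Fermat.Agent.S42

namespace Fermat.Agent.S42

open Module

variable {K : Type*} [Field K] {G : Type*} [Group G]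

/-- a minimal nonzero stable subspace -/
theorem exists_minimal_stable {V : Type*} [AddCommGroup V] [Module K V] [FiniteDimensional K V]
    [Nontrivial V] (ρ : G →* Module.End K V) :
    ∃ U : Submodule K V, U ≠ ⊥ ∧ (∀ g, ∀ x ∈ U, ρ g x ∈ U) ∧
      ∀ U' : Submodule K V, U' ≤ U → (∀ g, ∀ x ∈ U', ρ g x ∈ U') → U' = ⊥ ∨ U' = U := by
  classical
  let P : ℕ → Prop := fun n => ∃ U : Submodule K V, U ≠ ⊥ ∧ (∀ g, ∀ x ∈ U, ρ g x ∈ U) ∧
    finrank K U = n
  have hP : ∃ n, P n := ⟨finrank K (⊤ : Submodule K V), ⊤, top_ne_bot, fun _ _ _ => trivial, rfl⟩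
  obtain ⟨U, hU0, hUst, hUn⟩ := Nat.find_spec hP
  refine ⟨U, hU0, hUst, fun U' hle hst => ?_⟩
  by_cases h0 : U' = ⊥
  · exact Or.inl h0
  · right
    have h1 : Nat.find hP ≤ finrank K U' := Nat.find_min' hP ⟨U', h0, hst, rfl⟩
    have h2 : finrank K U' ≤ finrank K U := Submodule.finrank_mono hle
    exact Submodule.eq_of_le_of_finrank_eq hle (by omega)

/-- **BLR-lite**. -/
theorem blr_lite [IsAlgClosed K] {V : Type*} [AddCommGroup V] [Module K V]
    [FiniteDimensional K V] [Nontrivial V]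
    (ρ₀ : G →* Module.End K V) (ω : G →* Kˣ)
    (h : ∀ σ, ∃ c : K, ρ₀ σ + ((ω σ : Kˣ) : K) • ρ₀ σ⁻¹ = c • (1 : Module.End K V)) :
    ∃ ρ' : G →* Matrix (Fin 2) (Fin 2) K,
      (∀ σ, ρ₀ σ = 1 → ω σ = 1 → ρ' σ = 1) ∧
      ∀ σ c, ρ₀ σ + ((ω σ : Kˣ) : K) • ρ₀ σ⁻¹ = c • (1 : Module.End K V) →
        (ρ' σ).trace = c ∧ (ρ' σ).det = ((ω σ : Kˣ) : K) := by
  classical
  choose c hc using h
  obtain ⟨U, hU0, hUst, hUmin⟩ := exists_minimal_stable ρ₀
  -- the restricted representation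
  let ρ : G →* Module.End K U :=
    { toFun := fun g => (ρ₀ g).restrict (hUst g)
      map_one' := by
        ext x
        simp
      map_mul' := fun g g' => by
        ext x
        simp }
  have hρ : ∀ g (x : U), ((ρ g x : U) : V) = ρ₀ g x := fun g x => rfl
  have : Nontrivial U := Submodule.nontrivial_iff_ne_bot.mpr hU0
  have hrel : ∀ σ, ρ σ + ((ω σ : Kˣ) : K) • ρ σ⁻¹ = c σ • (1 : Module.End K U) := by
    intro σ
    ext x
    have := congrArg (fun f : Module.End K V => f (x : V)) (hc σ)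
    simpa [hρ] using this
  have irr : ∀ U' : Submodule K U, (∀ g, ∀ x ∈ U', ρ g x ∈ U') → U' = ⊥ ∨ U' = ⊤ := by
    intro U' hst
    rcases hUmin (U'.map U.subtype) (Submodule.map_subtype_le U U') (by
      rintro g _ ⟨x, hx, rfl⟩
      exact ⟨ρ g x, hst g x hx, rfl⟩) with h1 | h1
    · left
      rw [eq_bot_iff]
      intro x hx
      have hx' : (x : V) ∈ U'.map U.subtype := ⟨x, hx, rfl⟩
      rw [h1] at hx'
      exact Subtype.ext hx'
    · right
      rw [eq_top_iff]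
      rintro x -
      have hx : (x : V) ∈ U'.map U.subtype := by rw [h1]; exact x.2
      obtain ⟨y, hy, hyx⟩ := hx
      have : y = x := Subtype.ext hyx
      exact this ▸ hy
  obtain ⟨ρ', h1, h2⟩ := blr_irreducible ρ ω c hrel irr
  refine ⟨ρ', fun σ hσ hω => h1 σ ?_ hω, fun σ c' hc' => ?_⟩
  · ext x
    rw [hρ, hσ]
    rfl
  · have hcc : c' = c σ := by
      have e := (hc' ▸ hc σ : c' • (1 : Module.End K V) = c σ • (1 : Module.End K V))
      obtain ⟨v, hv⟩ := exists_ne (0 : V)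
      have := congrArg (fun f : Module.End K V => f v) e
      simp only [LinearMap.smul_apply, Module.End.one_apply] at this
      exact smul_left_injective K hv this
    rw [hcc]
    exact h2 σ

end Fermat.Agent.S42
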