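import Mathlib

/-!
# The Lucas recursion

If `X + b • X⁻¹ = a` is a scalar then so is `X ^ m + b ^ m • X⁻¹ ^ m` for every `m`.
-/

set_option autoImplicit false

namespace Fermat.Agent.S42

theorem lucas_pair {R K : Type*} [Field K] [Ring R] [Algebra K R] (X Y : R)
    (hXY : X * Y = 1) (hYX : Y * X = 1) (a b : K) (h : X + b • Y = a • (1 : R)) (m : ℕ) :
    (∃ c : K, X ^ m + b ^ m • Y ^ m = c • (1 : R)) ∧
      ∃ c : K, X ^ (m + 1) + b ^ (m + 1) • Y ^ (m + 1) = c • (1 : R) := by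
  induction m with
  | zero =>
    refine ⟨⟨2, ?_⟩, ⟨a, ?_⟩⟩
    · simp only [pow_zero, one_smul]
      rw [two_smul]
    · simpa using h
  | succ m ih =>
    obtain ⟨⟨c₀, h₀⟩, ⟨c₁, h₁⟩⟩ := ih
    refine ⟨⟨c₁, h₁⟩, ⟨a * c₁ - b * c₀, ?_⟩⟩
    have e1 : X * Y ^ (m + 1) = Y ^ m := by
      rw [pow_succ', ← mul_assoc, hXY, one_mul]
    have e2 : Y * X ^ (m + 1) = X ^ m := by
      rw [pow_succ', ← mul_assoc, hYX, one_mul]
    have key : (X + b • Y) * (X ^ (m + 1) + b ^ (m + 1) • Y ^ (m + 1))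
        = (X ^ (m + 1 + 1) + b ^ (m + 1 + 1) • Y ^ (m + 1 + 1)) + b • (X ^ m + b ^ m • Y ^ m) := by
      have e3 : X * X ^ (m + 1) = X ^ (m + 1 + 1) := (pow_succ' X (m + 1)).symm
      have e4 : Y * Y ^ (m + 1) = Y ^ (m + 1 + 1) := (pow_succ' Y (m + 1)).symm
      simp only [add_mul, mul_add, smul_mul_assoc, mul_smul_comm, e1, e2, e3, e4, smul_smul,
        smul_add]
      rw [pow_succ b (m + 1), pow_succ' b m]
      abel
    rw [h, h₁, h₀] at key
    have : X ^ (m + 1 + 1) + b ^ (m + 1 + 1) • Y ^ (m + 1 + 1)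
        = a • (1 : R) * c₁ • (1 : R) - b • c₀ • (1 : R) := by
      rw [key]; abel
    rw [this, sub_smul, smul_mul_smul_comm, mul_one, smul_smul]

theorem lucas {R K : Type*} [Field K] [Ring R] [Algebra K R] (X Y : R)
    (hXY : X * Y = 1) (hYX : Y * X = 1) (a b : K) (h : X + b • Y = a • (1 : R)) (m : ℕ) :
    ∃ c : K, X ^ m + b ^ m • Y ^ m = c • (1 : R) :=
  (lucas_pair X Y hXY hYX a b h m).1

end Fermat.Agent.S42
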