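import Mathlib

/-!
# A ring homomorphism into a field of characteristic `p` with integral values has maximal kernel
-/

set_option autoImplicit false

namespace Fermat.Agent.S42

theorem ker_isMaximal_of_isIntegral {H K : Type*} [CommRing H] [Field K] (p : ℕ) [Fact p.Prime]
    [CharP K p] (ev : H →+* K) (hint : ∀ t : H, IsIntegral ℤ (ev t)) :
    (RingHom.ker ev).IsMaximal := by
  letI : Algebra (ZMod p) K := ZMod.algebra K p
  -- the range as a subalgebra over `ZMod p`
  let A : Subalgebra (ZMod p) K :=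
    { ev.rangeS with
      algebraMap_mem' := fun c => by
        refine ⟨((c.val : ℕ) : H), ?_⟩
        rw [map_natCast]
        have : (algebraMap (ZMod p) K) c = ((c.val : ℕ) : K) := by
          conv_lhs => rw [← ZMod.natCast_zmod_val c]
          rw [map_natCast]
        rw [this] }
  have hA : ∀ x : K, x ∈ A ↔ ∃ t, ev t = x := fun x => Iff.rfl
  rw [Ideal.isMaximal_iff]
  refine ⟨?_, fun J x hJ hx hxJ => ?_⟩
  · rw [RingHom.mem_ker, map_one]
    exact one_ne_zero
  · have hx0 : ev x ≠ 0 := fun h => hx (RingHom.mem_ker.mpr h)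
    have halg : IsAlgebraic (ZMod p) (ev x) := (hint x).tower_top.isAlgebraic
    have hinv : (ev x)⁻¹ ∈ A := A.inv_mem_of_algebraic (x := ⟨ev x, (hA _).mpr ⟨x, rfl⟩⟩) halg
    obtain ⟨s, hs⟩ := (hA _).mp hinv
    have h1 : x * s - 1 ∈ RingHom.ker ev := by
      rw [RingHom.mem_ker, map_sub, map_mul, hs, map_one, mul_inv_cancel₀ hx0, sub_self]
    have h2 : x * s ∈ J := J.mul_mem_right s hxJ
    have h3 : x * s - (x * s - 1) ∈ J := J.sub_mem h2 (hJ h1)
    simpa using h3

end Fermat.Agent.S42
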