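import Mathlib
import Fermat.Agent.S42.Plan
import Fermat.Agent.S42.AbstractGlue
import Fermat.Agent.S42.MaxKer

/-!
# S42 assembly

`exists_residual_rep`: from the Eichler–Shimura package, weak Chebotarev, the cyclotomic character,
the Galois hull and integrality of eigenvalues: the two-dimensional residual representation
attached to a normalized eigenform.
-/

set_option autoImplicit false
set_option linter.style.haveILetI false

namespace Fermat.Agent.S42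

open Fermat.Agent.ES ModularCurve

/-- the Hecke polynomial ring in the good variables -/
abbrev GoodHecke (M p : ℕ) : Type := MvPolynomial (goodPrimes M p) ℤ

/-- the inclusion of the good Hecke polynomial ring -/
noncomputable def goodIncl (M p : ℕ) : GoodHecke M p →+* HeckeAlg :=
  (MvPolynomial.rename (Subtype.val : goodPrimes M p → Nat.Primes) :
    GoodHecke M p →ₐ[ℤ] HeckeAlg).toRingHom

theorem goodIncl_X (M p : ℕ) (ℓ : goodPrimes M p) :
    goodIncl M p (MvPolynomial.X ℓ) = heckeGen ℓ.1 := by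
  simp [goodIncl, heckeGen]

theorem goodIncl_mem_supported (M p : ℕ) (t : GoodHecke M p) :
    goodIncl M p t ∈ MvPolynomial.supported ℤ (goodPrimes M p) := by
  rw [MvPolynomial.supported_eq_range_rename]
  exact ⟨t, rfl⟩

/-- the evaluation of good Hecke polynomials at a system of algebraic integers -/
noncomputable def evZ (M p : ℕ) (a : Nat.Primes → Zbar) : GoodHecke M p →+* Zbar :=
  MvPolynomial.eval₂Hom (Int.castRingHom Zbar) (fun ℓ : goodPrimes M p => a ℓ.1)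

theorem evZ_X (M p : ℕ) (a : Nat.Primes → Zbar) (ℓ : goodPrimes M p) :
    evZ M p a (MvPolynomial.X ℓ) = a ℓ.1 := by
  simp [evZ]

theorem coe_evZ {M : ℕ} (p : ℕ) (g : CuspForm (CongruenceSubgroup.Gamma0 M) 2)
    (a : Nat.Primes → Zbar)
    (ha : ∀ ℓ : Nat.Primes, ¬ (ℓ : ℕ) ∣ M * p → ((a ℓ : Zbar) : ℂ) = ModularFormClass.qCoeff g ℓ)
    (t : GoodHecke M p) :
    ((evZ M p a t : Zbar) : ℂ) = heckeValue g (goodIncl M p t) := by
  have h : ((algebraMap Zbar ℂ).comp (evZ M p a)) =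
      ((MvPolynomial.aeval (fun ℓ : Nat.Primes => ModularFormClass.qCoeff g ℓ) :
        HeckeAlg →ₐ[ℤ] ℂ).toRingHom.comp (goodIncl M p)) := by
    apply MvPolynomial.ringHom_ext
    · intro n
      simp
    · intro ℓ
      simp only [RingHom.comp_apply, evZ_X, goodIncl_X]
      rw [heckeGen, AlgHom.toRingHom_eq_coe, RingHom.coe_coe, MvPolynomial.aeval_X]
      exact ha ℓ.1 ℓ.2
  exact congrArg (fun f : GoodHecke M p →+* ℂ => f t) h

end Fermat.Agent.S42

namespace Fermat.Agent.S42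

open Fermat.Agent.ES ModularCurve

theorem exists_residual_rep (hInt : StmtInt) (hCyc : StmtCyclo) (hHull : StmtHull)
    (hWC : Fermat.Agent.Cheb.WeakChebotarev)
    (M p : ℕ) (hM : 0 < M) (hp : p.Prime) (hES : ESPkg M p)
    (E₀ : IntermediateField ℚ (AlgebraicClosure ℚ)) (hE₀ : FiniteDimensional ℚ E₀)
    (g : CuspForm (CongruenceSubgroup.Gamma0 M) 2) (hg : g.IsNormalizedEigenform)
    (𝔪 : Ideal Zbar) (h𝔪 : 𝔪.IsMaximal) (hp𝔪 : (p : Zbar) ∈ 𝔪) :
    ∃ (K : Type) (_ : Field K) (_ : Algebra (ZMod p) K) (ψ : Zbar →+* K)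
      (F : IntermediateField ℚ (AlgebraicClosure ℚ))
      (ρ' : GQ →* Matrix (Fin 2) (Fin 2) K),
      𝔪 ≤ RingHom.ker ψ ∧ FiniteDimensional ℚ F ∧ Normal ℚ F ∧ E₀ ≤ F ∧
        (∀ σ : GQ, FixesField F σ → ρ' σ = 1) ∧
        ∀ ℓ : ℕ, ℓ.Prime → ¬ ℓ ∣ M * p →
          ∀ A : ValuationSubring (AlgebraicClosure ℚ), A.LiesOverPrime ℓ →
            ∀ τ : GQ, A.IsFrobeniusAt τ ℓ →
              (∃ a : Zbar, (a : ℂ) = ModularFormClass.qCoeff g ℓ ∧ (ρ' τ).trace = ψ a) ∧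
              (ρ' τ).det = (ℓ : K) := by
  classical
  haveI : Fact p.Prime := ⟨hp⟩
  letI : Field (Zbar ⧸ 𝔪) := Ideal.Quotient.field 𝔪
  let K : Type := AlgebraicClosure (Zbar ⧸ 𝔪)
  let ψ : Zbar →+* K := (algebraMap (Zbar ⧸ 𝔪) K).comp (Ideal.Quotient.mk 𝔪)
  have hψker : ∀ z : Zbar, ψ z = 0 ↔ z ∈ 𝔪 := by
    intro z
    show (algebraMap (Zbar ⧸ 𝔪) K) (Ideal.Quotient.mk 𝔪 z) = 0 ↔ _
    rw [map_eq_zero_iff _ (algebraMap (Zbar ⧸ 𝔪) K).injective, Ideal.Quotient.eq_zero_iff_mem]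
  haveI hchar : CharP K p := by
    rw [CharP.charP_iff_prime_eq_zero hp]
    have : ψ (p : Zbar) = 0 := (hψker _).mpr hp𝔪
    rwa [map_natCast] at this
  letI : Algebra (ZMod p) K := ZMod.algebra K p
  -- the eigenvalues
  have hIntex : ∀ ℓ : Nat.Primes, ∃ a : Zbar, ¬ (ℓ : ℕ) ∣ M * p →
      (a : ℂ) = ModularFormClass.qCoeff g ℓ := by
    intro ℓ
    by_cases h : (ℓ : ℕ) ∣ M * p
    · exact ⟨0, fun h' => absurd h h'⟩
    · obtain ⟨a, ha⟩ := hInt M hM g hg ℓ ℓ.2 (fun h' => h (Dvd.dvd.mul_right h' p))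
      exact ⟨a, fun _ => ha⟩
  choose a ha using hIntex
  -- the package
  obtain ⟨V, _, _, _, hV⟩ := hES
  haveI : Finite V := hV.finite
  letI : Module (GoodHecke M p) V := Module.compHom V (goodIncl M p)
  have hsm : ∀ (t : GoodHecke M p) (v : V), t • v = goodIncl M p t • v := fun _ _ => rfl
  have hcomm : ∀ (σ : GQ) (t : GoodHecke M p) (v : V), σ • t • v = t • σ • v := by
    intro σ t v
    rw [hsm, hsm, hV.smul_comm]
  let ev : GoodHecke M p →+* K := ψ.comp (evZ M p a)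
  have hmax : (RingHom.ker ev).IsMaximal := by
    apply ker_isMaximal_of_isIntegral p ev
    intro t
    exact map_isIntegral_int ψ (Algebra.IsIntegral.isIntegral (R := ℤ) (evZ M p a t))
  -- the eigenvector
  obtain ⟨v₀, hv₀, hkill₀⟩ := hV.supp g hg 𝔪 h𝔪 hp𝔪
  have hkill : ∀ t : GoodHecke M p, ev t = 0 → t • v₀ = 0 := by
    intro t ht
    rw [hsm]
    apply hkill₀ _ (goodIncl_mem_supported M p t)
    exact ⟨evZ M p a t, (hψker _).mp ht, coe_evZ p g a ha t⟩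
  -- the cyclotomic character
  obtain ⟨ω₀, ⟨Eω, hEωfin, hEω⟩, hωfrob⟩ := hCyc p hp
  let ω : GQ →* Kˣ := (Units.map (algebraMap (ZMod p) K : ZMod p →* K)).comp ω₀
  have hω : ∀ σ, ((ω σ : Kˣ) : K) = algebraMap (ZMod p) K ((ω₀ σ : (ZMod p)ˣ) : ZMod p) :=
    fun σ => rfl
  -- the field F
  have hlev := hV.finite_level
  choose Ev hEvfin hEv using hlev
  letI : Fintype V := Fintype.ofFinite V
  obtain ⟨F, hFfin, hFnorm, hFle⟩ := hHull (insert Eω (insert E₀ (Finset.univ.image Ev))) (by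
    intro E hE
    rcases Finset.mem_insert.mp hE with rfl | hE
    · exact hEωfin
    rcases Finset.mem_insert.mp hE with rfl | hE
    · exact hE₀
    obtain ⟨v, -, rfl⟩ := Finset.mem_image.mp hE
    exact hEvfin v)
  have hFω : Eω ≤ F := hFle _ (Finset.mem_insert_self _ _)
  have hF₀ : E₀ ≤ F := hFle _ (Finset.mem_insert_of_mem (Finset.mem_insert_self _ _))
  have hFv : ∀ v, Ev v ≤ F := fun v => hFle _ (Finset.mem_insert_of_mem
    (Finset.mem_insert_of_mem (Finset.mem_image_of_mem Ev (Finset.mem_univ v))))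
  have hfixV : ∀ σ : GQ, FixesField F σ → ∀ v : V, σ • v = v :=
    fun σ hσ v => hEv v σ fun x hx => hσ x (hFv v hx)
  have hfixω : ∀ σ : GQ, FixesField F σ → ω σ = 1 := by
    intro σ hσ
    have : ω₀ σ = 1 := hEω σ fun x hx => hσ x (hFω hx)
    show (Units.map (algebraMap (ZMod p) K : ZMod p →* K)) (ω₀ σ) = 1
    rw [this, map_one]
  -- Frobenius data
  have hfrob : ∀ ℓ : ℕ, (hℓ : ℓ.Prime) → (hℓMp : ¬ ℓ ∣ M * p) →
      ∀ A : ValuationSubring (AlgebraicClosure ℚ), A.LiesOverPrime ℓ →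
        ∀ τ : GQ, A.IsFrobeniusAt τ ℓ →
          (∀ v : V, τ • τ • v - (MvPolynomial.X (⟨⟨ℓ, hℓ⟩, hℓMp⟩ : goodPrimes M p) :
              GoodHecke M p) • τ • v + ((ℓ : ℕ) : GoodHecke M p) • v = 0) ∧
            ev ((ℓ : ℕ) : GoodHecke M p) = ((ω τ : Kˣ) : K) := by
    intro ℓ hℓ hℓMp A hA τ hτ
    constructor
    · intro v
      rw [hsm, hsm, goodIncl_X, map_natCast, Nat.cast_smul_eq_nsmul]
      exact hV.frob ℓ hℓ hℓMp A hA τ hτ v
    · rw [map_natCast, hω]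
      have hℓp : ℓ ≠ p := by
        rintro rfl
        exact hℓMp (Dvd.intro_left M rfl)
      rw [hωfrob ℓ hℓ hℓp A hA τ hτ, map_natCast]
  -- apply the abstract glue
  obtain ⟨ρ', h1, h2⟩ := abstract_glue hcomm ev hmax v₀ hv₀ hkill ω (by
    intro σ
    obtain ⟨ℓ, A, τ, m, hℓ, hℓS, hA, hτ, hm⟩ := @hWC F hFfin ⟨⟩ (M * p).primeFactors σ
    have hℓMp : ¬ ℓ ∣ M * p := by
      intro hdvd
      apply hℓS
      rw [Nat.mem_primeFactors]
      exact ⟨hℓ, hdvd, Nat.mul_ne_zero hM.ne' hp.ne_zero⟩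
    obtain ⟨hq, hb⟩ := hfrob ℓ hℓ hℓMp A hA τ hτ
    refine ⟨τ, _, _, m, hq, hb, ?_, ?_⟩
    · intro v
      have hκ : FixesField F ((τ ^ m)⁻¹ * σ) := by
        intro x hx
        rw [AlgEquiv.mul_apply, ← hm x hx]
        show (τ ^ m)⁻¹ ((τ ^ m) x) = x
        exact (τ ^ m).symm_apply_apply x
      have := hfixV _ hκ v
      rw [mul_smul, inv_smul_eq_iff] at this
      exact this
    · have hκ : FixesField F ((τ ^ m)⁻¹ * σ) := by
        intro x hx
        rw [AlgEquiv.mul_apply, ← hm x hx]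
        show (τ ^ m)⁻¹ ((τ ^ m) x) = x
        exact (τ ^ m).symm_apply_apply x
      have := hfixω _ hκ
      rw [map_mul, map_inv, inv_mul_eq_one, map_pow] at this
      exact this.symm)
  refine ⟨K, inferInstance, inferInstance, ψ, F, ρ', ?_, hFfin, hFnorm, hF₀, ?_, ?_⟩
  · intro z hz
    exact RingHom.mem_ker.mpr ((hψker z).mpr hz)
  · intro σ hσ
    exact h1 σ (hfixV σ hσ) (hfixω σ hσ)
  · intro ℓ hℓ hℓMp A hA τ hτ
    obtain ⟨hq, hb⟩ := hfrob ℓ hℓ hℓMp A hA τ hτ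
    obtain ⟨htr, hdet⟩ := h2 τ _ _ hq hb
    refine ⟨⟨a ⟨ℓ, hℓ⟩, ha ⟨ℓ, hℓ⟩ hℓMp, ?_⟩, ?_⟩
    · rw [htr]
      show ψ (evZ M p a (MvPolynomial.X _)) = _
      rw [evZ_X]
    · rw [hdet, ← hb, map_natCast]

end Fermat.Agent.S42
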