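import Mathlib
import Fermat.Agent.S42.FreyField
import Fermat.Agent.S13.Torsion
import Fermat.Agent.S13.DivPoly.Bridge

/-!
# S42 piece [EC-1], unconditional (helper63)

`StmtFreyField` from S13's division-polynomial criterion (`stmtTorsZero`, `stmtZeroTors`)
and `stmtCard_of_criterion`.
-/

set_option autoImplicit false

namespace Fermat.Agent.S42

/-- S13's `StmtCard`, unconditionally: `E[p](ℚ̄)` of a Frey curve is finite of order `≤ p²`. -/
theorem freyField_stmtCard : Fermat.Agent.S13.StmtCard :=
  Fermat.Agent.S13.stmtCard_of_criterion fun P x y h =>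
    ⟨Fermat.Agent.S13.stmtTorsZero P x y h, Fermat.Agent.S13.stmtZeroTors P x y h⟩

/-- [EC-1]: the mod-`p` representation of a Frey curve has finite level. -/
theorem stmtFreyField : StmtFreyField :=
  stmtFreyField_of_card freyField_stmtCard

end Fermat.Agent.S42
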