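import Mathlib
import Fermat.Agent.S42.Assembly

/-!
# S42 from the pieces

`s42_of_pieces`: the frozen statement S42 follows from the Eichler–Shimura package (at all levels,
for the prime of the Frey package), weak Chebotarev, and the small pieces.
-/

set_option autoImplicit false
set_option linter.style.haveILetI false

namespace Fermat.Agent.S42

open Fermat.Agent.ES ModularCurve

/-- S42 at one Frey package `P`, from the Eichler–Shimura packages at residue characteristic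
`P.p` only. -/
theorem s42_of_pieces_at (hFrey : StmtFreyField) (hInt : StmtInt) (hCyc : StmtCyclo)
    (hHull : StmtHull) (hWC : Fermat.Agent.Cheb.WeakChebotarev) (P : FreyPackage)
    (hES : ∀ M : ℕ, 0 < M → ESPkg M P.p) :
    ∀ M : ℕ, 0 < M → P.EigenformResidualAttachmentAt M := by
  classical
  intro M hM g hg 𝔪 h𝔪 hp𝔪
  obtain ⟨E₀, hE₀fin, hE₀⟩ := hFrey P
  obtain ⟨K, iK, iAlg, ψ, F, ρ', hψ, hFfin, hFnorm, hF₀, hker, hfrob⟩ :=
    exists_residual_rep hInt hCyc hHull hWC M P.p hM P.pp (hES M hM) E₀ hE₀fin g hg 𝔪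
      h𝔪 hp𝔪
  haveI : NumberField F := ⟨⟩
  haveI : IsGalois ℚ F := ⟨⟩
  let ρ : Representation K GQ (Fin 2 → K) :=
    ((Matrix.toLinAlgEquiv' : Matrix (Fin 2) (Fin 2) K ≃ₐ[K] _) :
      Matrix (Fin 2) (Fin 2) K →* _).comp ρ'
  have hρ : ∀ σ, ρ σ = Matrix.toLin' (ρ' σ) := fun σ => rfl
  refine ⟨K, iK, iAlg, Fin 2 → K, inferInstance, inferInstance, ρ, ψ, F, inferInstance,
    inferInstance, inferInstance, inferInstance, inferInstance, hψ, ?_, ?_, ?_, ?_⟩
  · exact Module.finrank_fin_fun K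
  · intro σ hσ
    have hfix : FixesField F σ := by
      intro x hx
      have h1 : AlgEquiv.restrictNormalHom (F := ℚ) (K₁ := AlgebraicClosure ℚ) F σ = 1 :=
        MonoidHom.mem_ker.mp hσ
      have h2 := AlgEquiv.restrictNormal_commutes σ F ⟨x, hx⟩
      have h3 : σ.restrictNormal F = 1 := h1
      rw [h3] at h2
      exact h2.symm
    refine Subgroup.mem_inf.mpr ⟨?_, ?_⟩
    · rw [MonoidHom.mem_ker]
      exact hE₀ σ fun x hx => hfix x (hF₀ hx)
    · rw [MonoidHom.mem_ker, hρ, hker σ hfix]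
      exact Matrix.toLin'_one
  · intro ℓ hℓ hℓM hℓp A hA τ hτ
    have hℓMp : ¬ ℓ ∣ M * P.p := by
      intro h
      rcases (Nat.Prime.dvd_mul hℓ).mp h with h | h
      · exact hℓM h
      · exact hℓp ((Nat.prime_dvd_prime_iff_eq hℓ P.pp).mp h)
    obtain ⟨⟨a, ha, htr⟩, -⟩ := hfrob ℓ hℓ hℓMp A hA τ hτ
    refine ⟨a, ha, ?_⟩
    rw [hρ, ← htr, LinearMap.trace_eq_matrix_trace K (Pi.basisFun K (Fin 2)),
      LinearMap.toMatrix_eq_toMatrix', LinearMap.toMatrix'_toLin']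
  · intro ℓ hℓ hℓM hℓp A hA τ hτ
    have hℓMp : ¬ ℓ ∣ M * P.p := by
      intro h
      rcases (Nat.Prime.dvd_mul hℓ).mp h with h | h
      · exact hℓM h
      · exact hℓp ((Nat.prime_dvd_prime_iff_eq hℓ P.pp).mp h)
    obtain ⟨-, hdet⟩ := hfrob ℓ hℓ hℓMp A hA τ hτ
    rw [hρ, LinearMap.det_toLin', hdet]

theorem s42_of_pieces (hFrey : StmtFreyField) (hInt : StmtInt) (hCyc : StmtCyclo)
    (hHull : StmtHull) (hWC : Fermat.Agent.Cheb.WeakChebotarev)
    (hES : ∀ M p : ℕ, 0 < M → p.Prime → ESPkg M p) (P : FreyPackage) :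
    ∀ M : ℕ, 0 < M → P.EigenformResidualAttachmentAt M :=
  s42_of_pieces_at hFrey hInt hCyc hHull hWC P fun M hM => hES M P.p hM P.pp

end Fermat.Agent.S42
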