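import Mathlib
import Fermat.Agent.S42.Final
import Fermat.Agent.S42.Int
import Fermat.Agent.S42.Cyclo
import Fermat.Agent.S42.Hull
import Fermat.Agent.Cheb.Final

/-!
# S42 reduced to its two remaining inputs

`s42_of_esPkg`: S42 follows from the Eichler–Shimura package and the finite level of the Frey
`p`-torsion representation.  Everything else (integrality, cyclotomic character, Galois hull,
weak Chebotarev, BLR-lite) is proved.
-/

set_option autoImplicit false

namespace Fermat.Agent.S42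

open Fermat.Agent.ES

theorem s42_of_esPkg (hFrey : StmtFreyField)
    (hES : ∀ M p : ℕ, 0 < M → p.Prime → ESPkg M p) (P : FreyPackage) :
    ∀ M : ℕ, 0 < M → P.EigenformResidualAttachmentAt M :=
  s42_of_pieces hFrey stmtInt stmtCyclo stmtHull Fermat.Agent.Cheb.weakChebotarev_holds hES P

/-- S42 at one Frey package, from the Eichler–Shimura packages at residue characteristic `P.p`
(a prime `≥ 5`) only. -/
theorem s42_of_esPkg_at (hFrey : StmtFreyField) (P : FreyPackage)
    (hES : ∀ M : ℕ, 0 < M → ESPkg M P.p) :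
    ∀ M : ℕ, 0 < M → P.EigenformResidualAttachmentAt M :=
  s42_of_pieces_at hFrey stmtInt stmtCyclo stmtHull Fermat.Agent.Cheb.weakChebotarev_holds P hES

/-- the reusable core with all proved pieces plugged in -/
theorem exists_residual_rep_of_esPkg
    (M p : ℕ) (hM : 0 < M) (hp : p.Prime) (hES : ESPkg M p)
    (E₀ : IntermediateField ℚ (AlgebraicClosure ℚ)) (hE₀ : FiniteDimensional ℚ E₀)
    (g : CuspForm (CongruenceSubgroup.Gamma0 M) 2) (hg : g.IsNormalizedEigenform)
    (𝔪 : Ideal Zbar) (h𝔪 : 𝔪.IsMaximal) (hp𝔪 : (p : Zbar) ∈ 𝔪) :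
    ∃ (K : Type) (_ : Field K) (_ : Algebra (ZMod p) K) (ψ : Zbar →+* K)
      (F : IntermediateField ℚ (AlgebraicClosure ℚ))
      (ρ' : GQ →* Matrix (Fin 2) (Fin 2) K),
      𝔪 ≤ RingHom.ker ψ ∧ FiniteDimensional ℚ F ∧ Normal ℚ F ∧ E₀ ≤ F ∧
        (∀ σ : GQ, FixesField F σ → ρ' σ = 1) ∧
        ∀ ℓ : ℕ, ℓ.Prime → ¬ ℓ ∣ M * p →
          ∀ A : ValuationSubring (AlgebraicClosure ℚ), A.LiesOverPrime ℓ →
            ∀ τ : GQ, A.IsFrobeniusAt τ ℓ →
              (∃ a : Zbar, (a : ℂ) = ModularFormClass.qCoeff g ℓ ∧ (ρ' τ).trace = ψ a) ∧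
              (ρ' τ).det = (ℓ : K) :=
  exists_residual_rep stmtInt stmtCyclo stmtHull Fermat.Agent.Cheb.weakChebotarev_holds M p hM hp
    hES E₀ hE₀ g hg 𝔪 h𝔪 hp𝔪

end Fermat.Agent.S42
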