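import Mathlib
import Fermat.Agent.S42.Reduced
import Fermat.Agent.S42.FreyFieldFinal
import Fermat.Agent.ES.Final

/-!
# S42 from the two remaining inputs of the Eichler–Shimura mountain

`s42_of_inputs` : S42 (frozen type) from `Fermat.Agent.INJ.StmtINJAll` (G2) and
`Fermat.Agent.ES.TorsionUnif M P.p` for all levels `M > 0` (G1), at the prime `P.p` only.
-/

set_option autoImplicit false

namespace Fermat.Agent.S42

open Fermat.Agent.ES

theorem s42_of_inputs (hINJ : Fermat.Agent.INJ.StmtINJAll) (P : FreyPackage)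
    (hUT : ∀ (M : ℕ) [NeZero M], TorsionUnif M P.p) :
    ∀ M : ℕ, 0 < M → P.EigenformResidualAttachmentAt M :=
  s42_of_esPkg_at stmtFreyField P fun M hM =>
    haveI : NeZero M := ⟨hM.ne'⟩
    esPkg_of_inj_of_torsionUnif hINJ P.pp (hUT M)

end Fermat.Agent.S42
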