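import Mathlib
import Fermat.Agent.S42.OfInputs
import Fermat.Agent.ES.TorsionUnifProved

/-!
# S42 from the single remaining input `INJ.StmtINJAll`

ESpkg-G1 is closed (`Fermat.Agent.ES.torsionUnif_proved`), so S42 (frozen type) follows from
`Fermat.Agent.INJ.StmtINJAll` alone.
-/

set_option autoImplicit false

namespace Fermat.Agent.S42

theorem s42_of_inj (hINJ : Fermat.Agent.INJ.StmtINJAll) (P : FreyPackage) :
    ∀ M : ℕ, 0 < M → P.EigenformResidualAttachmentAt M :=
  s42_of_inputs hINJ P fun M => Fermat.Agent.ES.torsionUnif_proved M P.p P.pp.pos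

end Fermat.Agent.S42
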